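import Fermat.Agent.LT.T7.H140.SpecDownQSpec

/-!
# Row LT, tower T7, node T7.L2Q.3 (sub-architect helper140): leaf SDQ.4 `BCDataQC` (helper476)

OFF-MAIN.  `bcDataQC476 F n : SDQ140.BCDataQC F n` VERBATIM vs
`LT/T7/H140/SpecDownQSpec.lean` (helper140@26e3e6c54, sha256 7aa829b756fe1896), nothing assumed.

A finite place `w` of `F` determines the rational prime `p ∈ w` (`N w = p ^ f`, `f ≥ 1`), the
prime `p` determines the place `v ∋ p` of `ℚ` (`(p)` is maximal in `𝓞 ℚ ≃ ℤ`) and `N w = p ^ f`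
determines `f`; so the finite part of `C` is defined by a choice of `(p, v, f)` if there is one.
The archimedean part is `4π · sphC (2 s) ∘ cosh` for the parameter `s` of `c`.
-/

set_option autoImplicit false

open AutomorphicForm IsDedekindDomain NumberField

noncomputable section

namespace Fermat.Agent.LT.T7.H476

open Fermat.Agent.LT.H556 Fermat.Agent.LT.H556.A0 Fermat.Agent.LT.T7 Fermat.Agent.LT.T7.L2Q

/-- The rational prime in a finite place `w` with `N w = p ^ f` is unique. -/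
theorem prime_unique476 {F : Type} [Field F] [NumberField F] (w : HeightOneSpectrum (𝓞 F))
    {p p' f f' : ℕ} (hp : p.Prime) (hp' : p'.Prime)
    (h : Ideal.absNorm w.asIdeal = p ^ f) (h' : Ideal.absNorm w.asIdeal = p' ^ f') :
    p = p' ∧ f = f' := by
  have hne1 : Ideal.absNorm w.asIdeal ≠ 1 := by
    rw [Ne, Ideal.absNorm_eq_one_iff]
    exact w.isPrime.ne_top
  have hf : f ≠ 0 := by
    rintro rfl
    exact hne1 (by rw [h, pow_zero])
  have hdvd : p ∣ p' ^ f' := by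
    rw [← h', h]
    exact dvd_pow_self p hf
  have hpp : p = p' := (Nat.prime_dvd_prime_iff_eq hp hp').1 (hp.dvd_of_dvd_pow hdvd)
  refine ⟨hpp, ?_⟩
  subst hpp
  exact Nat.pow_right_injective hp.two_le (h.symm.trans h')

/-- The place of `ℚ` containing the prime `p` is unique. -/
theorem place_unique476 {p : ℕ} (hp : p.Prime) (v v' : HeightOneSpectrum (𝓞 ℚ))
    (hv : ((p : ℕ) : 𝓞 ℚ) ∈ v.asIdeal) (hv' : ((p : ℕ) : 𝓞 ℚ) ∈ v'.asIdeal) : v = v' := by
  have hmax : (Ideal.span {((p : ℕ) : ℤ)}).IsMaximal :=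
    PrincipalIdealRing.isMaximal_of_irreducible (Nat.prime_iff_prime_int.1 hp).irreducible
  have hI : (Ideal.comap (Rat.ringOfIntegersEquiv : 𝓞 ℚ →+* ℤ)
      (Ideal.span {((p : ℕ) : ℤ)})).IsMaximal :=
    Ideal.comap_isMaximal_of_surjective _ Rat.ringOfIntegersEquiv.surjective
  have hle : ∀ u : HeightOneSpectrum (𝓞 ℚ), ((p : ℕ) : 𝓞 ℚ) ∈ u.asIdeal →
      Ideal.comap (Rat.ringOfIntegersEquiv : 𝓞 ℚ →+* ℤ) (Ideal.span {((p : ℕ) : ℤ)}) ≤
        u.asIdeal := by
    intro u hu x hx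
    rw [Ideal.mem_comap, Ideal.mem_span_singleton] at hx
    obtain ⟨k, hk⟩ := hx
    have hx' : x = ((p : ℕ) : 𝓞 ℚ) * Rat.ringOfIntegersEquiv.symm k := by
      apply Rat.ringOfIntegersEquiv.injective
      rw [map_mul, map_natCast, RingEquiv.apply_symm_apply]
      exact hk
    rw [hx']
    exact u.asIdeal.mul_mem_right _ hu
  have h1 := hI.eq_of_le v.isPrime.ne_top (hle v hv)
  have h2 := hI.eq_of_le v'.isPrime.ne_top (hle v' hv')
  exact HeightOneSpectrum.ext (h1.symm.trans h2)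

/-- **SDQ.4 `BCDataQC`.** -/
theorem bcDataQC476 (F : Type) [Field F] [NumberField F] (n : QWt) : SDQ140.BCDataQC F n := by
  classical
  intro c hc
  obtain ⟨s, hs⟩ := hc
  -- the triples `(p, v, f)` attached to a finite place `w`
  let Q : HeightOneSpectrum (𝓞 F) → ℕ × HeightOneSpectrum (𝓞 ℚ) × ℕ → Prop := fun w t =>
    t.1.Prime ∧ ((t.1 : ℕ) : 𝓞 ℚ) ∈ t.2.1.asIdeal ∧ ((t.1 : ℕ) : 𝓞 F) ∈ w.asIdeal ∧
      Ideal.absNorm w.asIdeal = t.1 ^ t.2.2
  have hQ : ∀ (w : HeightOneSpectrum (𝓞 F)) (t t' : ℕ × HeightOneSpectrum (𝓞 ℚ) × ℕ),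
      Q w t → Q w t' → t = t' := by
    rintro w ⟨p, v, f⟩ ⟨p', v', f'⟩ ⟨hp, hv, -, hN⟩ ⟨hp', hv', -, hN'⟩
    obtain ⟨rfl, rfl⟩ := prime_unique476 w hp hp' hN hN'
    have hvv : v = v' := place_unique476 hp v v' hv hv'
    subst hvv
    rfl
  refine ⟨⟨fun w => if h : ∃ t, Q w t then
        satakePow h.choose.2.2 (c.a h.choose.2.1) (c.b h.choose.2.1) else 0,
      fun w => if h : ∃ t, Q w t then c.b h.choose.2.1 ^ h.choose.2.2 else 0,
      fun _ d => ((4 * Real.pi : ℝ) : ℂ) * T6.sphC (2 * s) (Real.cosh d)⟩, ?_, s, hs, ?_⟩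
  · intro p hp _ v hv w f hw hN
    have hex : ∃ t, Q w t := ⟨(p, v, f), hp, hv, hw, hN⟩
    have heq : hex.choose = (p, v, f) := hQ w _ _ hex.choose_spec ⟨hp, hv, hw, hN⟩
    constructor
    · change (if h : ∃ t, Q w t then
        satakePow h.choose.2.2 (c.a h.choose.2.1) (c.b h.choose.2.1) else 0) = _
      rw [dif_pos hex, heq]
    · change (if h : ∃ t, Q w t then c.b h.choose.2.1 ^ h.choose.2.2 else 0) = _
      rw [dif_pos hex, heq]
  · intro w d _
    rfl

end Fermat.Agent.LT.T7.H476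

end
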